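/-
S41 / [RIBET-ALG] (helper15): the algebraic heart of Ribet's level raising, in the DIRECT form
(no contradiction, no localisation, no Weil bound).

Abstract data: a commutative ring `𝕋` (the anemic Hecke algebra) acting on two abelian groups
`L` (level `N`) and `L'` (level `N q`), finitely generated, `L` torsion free; `𝕋`-linear maps
`α : L × L → L'` (the two degeneracy maps) and `β : L' → L × L` (the two traces); a character
`χ : 𝕋 → 𝔽_p` (the system of eigenvalues of `E` mod `p`).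

* (IHARA)  some `s₀` with `χ s₀ ≠ 0` kills the kernel of `α` mod `p`;
* (DUAL)   Poincaré duality in the only form in which it is used: whenever `s` kills the kernel of
           `α` mod `p`, `s` maps `L × L` into `β L' + p (L × L)`  (`coker β̄ = (ker ᾱ)^∨`);
* (EIGEN)  a mod-`p` eigenvector `w ∈ L × L` with `β (α w) ≡ 0` mod `p`
           (from `f`: `w = (v, ∓ v)`, `T_q v ≡ ± (q + 1) v`).

Conclusion: a vector `x ∈ ker β`, `x ∉ p L'`, with `t x ≡ χ(t) x` mod `p ker β` for all `t`: the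
input of Deligne–Serre (helper49 `DS49.deligne_serre_lattice`).
-/
import Mathlib

set_option autoImplicit false

namespace Fermat.Agent.S41.Ribet15

open Polynomial

/-! ### a Nakayama-type lemma -/

/-- if `s₀ ∉ 𝔫` maps a finitely generated module into `a M` with `a ∈ 𝔫` (`𝔫` prime), then some
`s₁ ∉ 𝔫` kills `M` (Cayley–Hamilton). -/
theorem exists_notMem_smul_eq_zero {R M : Type*} [CommRing R] [AddCommGroup M] [Module R M]
    [Module.Finite R M] (𝔫 : Ideal R) [𝔫.IsPrime] {a s₀ : R} (ha : a ∈ 𝔫) (hs₀ : s₀ ∉ 𝔫)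
    (h : ∀ m : M, ∃ m' : M, s₀ • m = a • m') :
    ∃ s₁ : R, s₁ ∉ 𝔫 ∧ ∀ m : M, s₁ • m = 0 := by
  classical
  set f : Module.End R M := algebraMap R (Module.End R M) s₀ with hf
  have hrange : LinearMap.range f ≤ (Ideal.span {a} : Ideal R) • (⊤ : Submodule R M) := by
    rintro _ ⟨m, rfl⟩
    obtain ⟨m', hm'⟩ := h m
    have : f m = a • m' := by rw [hf, Module.algebraMap_end_apply]; exact hm'
    rw [this]
    exact Submodule.smul_mem_smul (Ideal.mem_span_singleton_self a) Submodule.mem_top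
  obtain ⟨g, hmonic, -, hcoeff, hg⟩ :=
    LinearMap.exists_monic_and_natDegree_eq_and_coeff_mem_pow_and_aeval_eq_zero R f _ hrange
  refine ⟨g.eval s₀, ?_, fun m => ?_⟩
  · -- `g(s₀) ≡ s₀ ^ deg g` mod `𝔫`
    have hI : ∀ k, k < g.natDegree → g.coeff k ∈ 𝔫 := by
      intro k hk
      have h1 := hcoeff k
      have h2 : (Ideal.span {a} : Ideal R) ^ (g.natDegree - k) ≤ Ideal.span {a} :=
        Ideal.pow_le_self (Nat.sub_ne_zero_of_lt hk)
      exact (Ideal.span_singleton_le_iff_mem (I := 𝔫)).2 ha (h2 h1)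
    rw [Polynomial.eval_eq_sum_range, Finset.sum_range_succ, hmonic.coeff_natDegree, one_mul]
    intro hmem
    have hsum : ∑ k ∈ Finset.range g.natDegree, g.coeff k * s₀ ^ k ∈ 𝔫 :=
      Ideal.sum_mem _ fun k hk => Ideal.mul_mem_right _ _ (hI k (Finset.mem_range.1 hk))
    have : s₀ ^ g.natDegree ∈ 𝔫 := by
      have := Ideal.sub_mem _ hmem hsum
      simpa using this
    exact hs₀ (Ideal.IsPrime.mem_of_pow_mem inferInstance _ this)
  · have h1 : (Polynomial.aeval f g) m = 0 := by rw [hg]; rfl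
    rw [hf, Polynomial.aeval_algebraMap_apply, Module.algebraMap_end_apply] at h1
    simpa [Polynomial.aeval_def, Polynomial.eval₂_eq_eval_map] using h1


/-! ### integers prime to `p` -/

section Arith

variable {p : ℕ} [Fact p.Prime]

/-- an integer which is non-zero mod `p` is invertible mod `p` -/
theorem exists_mul_eq_one_add {c : ℤ} (hc : (c : ZMod p) ≠ 0) :
    ∃ d e : ℤ, d * c = 1 + (p : ℤ) * e := by
  obtain ⟨d, hd⟩ := ZMod.intCast_surjective ((c : ZMod p)⁻¹)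
  have h1 : ((d * c - 1 : ℤ) : ZMod p) = 0 := by
    push_cast
    rw [hd, inv_mul_cancel₀ hc, sub_self]
  obtain ⟨e, he⟩ := (ZMod.intCast_zmod_eq_zero_iff_dvd _ p).1 h1
  exact ⟨d, e, by linarith⟩

/-- if `c u ∈ p M` with `c` prime to `p`, then `u ∈ p M` -/
theorem mem_of_zsmul_mem {M : Type*} [AddCommGroup M] {c : ℤ} (hc : (c : ZMod p) ≠ 0) {u : M}
    (h : ∃ u' : M, c • u = (p : ℤ) • u') : ∃ u' : M, u = (p : ℤ) • u' := by
  obtain ⟨u', hu'⟩ := h
  obtain ⟨d, e, hde⟩ := exists_mul_eq_one_add hc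
  refine ⟨d • u' - e • u, ?_⟩
  have h1 : (d * c) • u = u + ((p : ℤ) * e) • u := by rw [hde, add_smul, one_smul]
  rw [mul_smul, hu'] at h1
  calc u = d • (p : ℤ) • u' - ((p : ℤ) * e) • u := by rw [h1]; abel
    _ = (p : ℤ) • (d • u' - e • u) := by rw [smul_sub, smul_comm d, mul_smul]

/-- every element of `ZMod p` has an integer lift -/
theorem exists_lift (a : ZMod p) : ∃ c : ℤ, (c : ZMod p) = a := ZMod.intCast_surjective a

end Arith

/-! ### the core -/

section Core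

variable {𝕋 : Type*} [CommRing 𝕋] {M₁ M₂ : Type*} [AddCommGroup M₁] [AddCommGroup M₂]
  [Module 𝕋 M₁] [Module 𝕋 M₂] [Module.Finite ℤ M₁]

/-- **[RIBET-ALG], direct form.**  `M₁ = L × L` (level `N`), `M₂ = L'` (level `N q`),
`α` the degeneracy maps, `β` the traces.  See the header of the file. -/
theorem exists_new_eigenvector (p : ℕ) [Fact p.Prime]
    (htf : ∀ x : M₁, (p : ℤ) • x = 0 → x = 0)
    (α : M₁ →ₗ[𝕋] M₂) (β : M₂ →ₗ[𝕋] M₁) (χ : 𝕋 →+* ZMod p)
    (s₀ : 𝕋) (hs₀ : χ s₀ ≠ 0)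
    (hIhara : ∀ x : M₁, (∃ y : M₂, α x = (p : ℤ) • y) → ∃ x' : M₁, s₀ • x = (p : ℤ) • x')
    (hDual : ∀ y : M₁, ∃ (y' : M₂) (z : M₁), β y' = s₀ • y + (p : ℤ) • z)
    (w : M₁) (hw : ¬ ∃ w' : M₁, w = (p : ℤ) • w')
    (hweig : ∀ (t : 𝕋) (c : ℤ), (c : ZMod p) = χ t → ∃ w' : M₁, t • w = c • w + (p : ℤ) • w')
    (hMw : ∃ z : M₁, β (α w) = (p : ℤ) • z) :
    ∃ x : M₂, β x = 0 ∧ (¬ ∃ y : M₂, x = (p : ℤ) • y) ∧
      ∀ (t : 𝕋) (c : ℤ), (c : ZMod p) = χ t →
        ∃ y : M₂, β y = 0 ∧ t • x = c • x + (p : ℤ) • y := by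
  classical
  -- the prime `𝔫 = ker χ`
  have h𝔫 : (RingHom.ker χ).IsPrime := RingHom.ker_isPrime χ
  have hp𝔫 : ((p : ℕ) : 𝕋) ∈ RingHom.ker χ := by
    rw [RingHom.mem_ker, map_natCast, ZMod.natCast_self]
  -- Step 1 (Nakayama): some `s₁ ∉ 𝔫` maps `M₁` into the range of `β`
  have : Module.Finite 𝕋 M₁ := Module.Finite.of_restrictScalars_finite ℤ 𝕋 M₁
  obtain ⟨s₁, hs₁, hs₁Q⟩ := exists_notMem_smul_eq_zero (M := M₁ ⧸ LinearMap.range β)
    (RingHom.ker χ) hp𝔫 (s₀ := s₀) (by rwa [RingHom.mem_ker]) (by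
      intro m
      obtain ⟨y, rfl⟩ := Submodule.Quotient.mk_surjective _ m
      obtain ⟨y', z, hy'⟩ := hDual y
      refine ⟨Submodule.Quotient.mk (-z), ?_⟩
      rw [← Submodule.Quotient.mk_smul, ← Submodule.Quotient.mk_smul, Submodule.Quotient.eq]
      have : s₀ • y - ((p : ℕ) : 𝕋) • -z = β y' := by
        rw [hy', Nat.cast_smul_eq_nsmul, smul_neg, sub_neg_eq_add, natCast_zsmul]
      rw [this]
      exact LinearMap.mem_range_self β y')
  have hs₁' : χ s₁ ≠ 0 := by rwa [RingHom.mem_ker] at hs₁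
  have hrange : ∀ y : M₁, ∃ y' : M₂, β y' = s₁ • y := by
    intro y
    have h0 := hs₁Q (Submodule.Quotient.mk y)
    rw [← Submodule.Quotient.mk_smul, Submodule.Quotient.mk_eq_zero] at h0
    exact h0
  -- Step 2: the new vector
  obtain ⟨z, hz⟩ := hMw
  obtain ⟨y'', hy''⟩ := hrange z
  obtain ⟨c₁, hc₁⟩ := exists_lift (χ s₁)
  obtain ⟨c₀, hc₀⟩ := exists_lift (χ s₀)
  obtain ⟨w₁, hw₁⟩ := hweig s₁ c₁ hc₁
  have hβx : β (s₁ • α w - (p : ℤ) • y'') = 0 := by
    rw [map_sub, map_smul, hz, map_zsmul, hy'', smul_comm]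
    exact sub_self _
  -- saturation of `ker β`
  have hsat : ∀ y : M₂, β ((p : ℤ) • y) = 0 → β y = 0 := by
    intro y hy
    rw [map_zsmul] at hy
    exact htf _ hy
  refine ⟨s₁ • α w - (p : ℤ) • y'', hβx, ?_, ?_⟩
  · -- Step 3: `x ∉ p M₂`
    rintro ⟨y, hy⟩
    -- `s₁ • α w = c₁ • α w + p • α w₁`
    have h1 : s₁ • α w = c₁ • α w + (p : ℤ) • α w₁ := by
      rw [← map_smul, hw₁, map_add, map_zsmul, map_zsmul]
    have h2 : ∃ y₂ : M₂, α (c₁ • w) = (p : ℤ) • y₂ := by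
      refine ⟨y + y'' - α w₁, ?_⟩
      rw [map_zsmul, smul_sub, smul_add, ← hy, h1]
      abel
    obtain ⟨x', hx'⟩ := hIhara _ h2
    obtain ⟨w₀, hw₀⟩ := hweig s₀ c₀ hc₀
    -- `c₀ c₁ w ∈ p M₁`
    have h3 : ∃ u' : M₁, (c₀ * c₁) • w = (p : ℤ) • u' := by
      refine ⟨x' - c₁ • w₀, ?_⟩
      have : s₀ • (c₁ • w) = c₁ • (s₀ • w) := smul_comm _ _ _
      rw [this, hw₀, smul_add, smul_smul, smul_comm c₁ (p : ℤ) w₀] at hx'
      rw [smul_sub, ← hx', mul_comm]
      abel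
    have hc01 : ((c₀ * c₁ : ℤ) : ZMod p) ≠ 0 := by
      push_cast
      rw [hc₀, hc₁]
      exact mul_ne_zero hs₀ hs₁'
    exact hw (mem_of_zsmul_mem hc01 h3)
  · -- Step 4: the eigenvector property
    intro t c hc
    obtain ⟨wt, hwt⟩ := hweig t c hc
    have h6 : t • s₁ • α w = c • s₁ • α w + (p : ℤ) • α (s₁ • wt) := by
      calc t • s₁ • α w = s₁ • α (t • w) := by rw [map_smul, smul_comm]
        _ = s₁ • (c • α w + (p : ℤ) • α wt) := by rw [hwt, map_add, map_zsmul, map_zsmul]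
        _ = c • s₁ • α w + (p : ℤ) • α (s₁ • wt) := by
            rw [smul_add, smul_comm s₁ c, smul_comm s₁ (p : ℤ), map_smul]
    have h7 : t • (s₁ • α w - (p : ℤ) • y'') =
        c • (s₁ • α w - (p : ℤ) • y'') + (p : ℤ) • (α (s₁ • wt) - t • y'' + c • y'') := by
      rw [smul_sub, h6, smul_comm t (p : ℤ)]
      simp only [smul_add, smul_sub]
      rw [smul_comm c (p : ℤ) y'']
      abel
    refine ⟨α (s₁ • wt) - t • y'' + c • y'', ?_, h7⟩
    -- it lies in `ker β` by saturation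
    apply hsat
    have h5 : (p : ℤ) • (α (s₁ • wt) - t • y'' + c • y'') =
        t • (s₁ • α w - (p : ℤ) • y'') - c • (s₁ • α w - (p : ℤ) • y'') := by
      rw [h7]; abel
    rw [h5, map_sub, map_smul, map_zsmul, hβx, smul_zero, smul_zero, sub_zero]

end Core

end Fermat.Agent.S41.Ribet15
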